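import Mathlib

/-!
# Norms commute with reduction: TWO extensions of a valuation ring (helper253)

Mathlib only.  `F / K` a finite field extension, `O` a valuation subring of `K`, `V₁`, `V₂`
valuation subrings of `F` lying over `O` (`V_i ∩ K = O`), with reductions
`π : O → k`, `ρ₁ : V₁ → κ₁`, `ρ₂ : V₂ → κ₂` onto fields.  If the two residue degrees add up to
`[F : K]` (so `V₁`, `V₂` are the only extensions and both are unramified), then for every
`y ∈ V₁ ∩ V₂`

  `N_{F/K} y ∈ O`   and   `π (N_{F/K} y) = N_{κ₁/k} (ρ₁ y) * N_{κ₂/k} (ρ₂ y)`.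

* `GoodFamily`        : an adapted family `m : ι₁ ⊕ ι₂ → F` (first block: residually independent
                        at `V₁`, in the maximal ideal of `V₂`; second block: the other way round);
* `GoodFamily.coeff_mem`, `GoodFamily.linearIndependent` : the lattice lemma;
* `GoodFamily.norm_red` : the norm formula for an adapted family whose residues are bases;
* `exists_approx`     : weak approximation for two incomparable valuation rings (any rank);
* `norm_red_two`      : the norm formula from surjective reductions and the degree equality.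

Intended use (S35 / S36 / toric package): `K = α(F_M) ⊆ F = F_{qM}`, `O` the Gauss valuation of
level `M`, `V₁ = V∞`, `V₂ = V₀` the two Gauss valuations of level `qM`; residue degrees `1` and `q`
(purely inseparable), see `NormInsep.lean`.
-/

set_option autoImplicit false

namespace Fermat.Agent.S35.H253

open scoped BigOperators

section Basic

variable {K F : Type*} [Field K] [Field F] [Algebra K F]

/-- `V` lies over `O`: `V ∩ K = O`. -/
def Over (O : ValuationSubring K) (V : ValuationSubring F) : Prop :=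
  ∀ a : K, algebraMap K F a ∈ V ↔ a ∈ O

theorem Over.val_lt_one_iff {O : ValuationSubring K} {V : ValuationSubring F}
    (h : Over O V) (a : K) :
    V.valuation (algebraMap K F a) < 1 ↔ O.valuation a < 1 := by
  rw [← ValuationSubring.mem_nonunits_iff, ← ValuationSubring.mem_nonunits_iff,
    ValuationSubring.mem_nonunits_iff_or, ValuationSubring.mem_nonunits_iff_or,
    ← map_inv₀, h a⁻¹, map_eq_zero]

theorem Over.val_le_one_iff {O : ValuationSubring K} {V : ValuationSubring F}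
    (h : Over O V) (a : K) :
    V.valuation (algebraMap K F a) ≤ 1 ↔ O.valuation a ≤ 1 := by
  rw [ValuationSubring.valuation_le_one_iff, ValuationSubring.valuation_le_one_iff, h a]

/-- A finite sum of elements of valuation `< 1` has valuation `< 1`. -/
theorem val_sum_lt_one {ι : Type*} (s : Finset ι) (V : ValuationSubring F) (f : ι → F)
    (hf : ∀ i ∈ s, V.valuation (f i) < 1) : V.valuation (∑ i ∈ s, f i) < 1 := by
  classical
  induction s using Finset.induction_on with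
  | empty => simp
  | insert a s ha ih =>
    rw [Finset.sum_insert ha]
    exact Valuation.map_add_lt _ (hf a (Finset.mem_insert_self a s))
      (ih fun i hi => hf i (Finset.mem_insert_of_mem hi))

theorem val_mul_lt_one_left (V : ValuationSubring F) {x y : F} (hx : V.valuation x < 1)
    (hy : V.valuation y ≤ 1) : V.valuation (x * y) < 1 := by
  rw [map_mul]
  calc V.valuation x * V.valuation y ≤ V.valuation x * 1 := by gcongr
    _ = V.valuation x := mul_one _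
    _ < 1 := hx

theorem val_mul_lt_one_right (V : ValuationSubring F) {x y : F} (hx : V.valuation x ≤ 1)
    (hy : V.valuation y < 1) : V.valuation (x * y) < 1 := by
  rw [mul_comm]; exact val_mul_lt_one_left V hy hx

end Basic

section Family

variable {K F : Type*} [Field K] [Field F] [Algebra K F]

/-- An adapted family for two extensions `V₁`, `V₂` of `O`: the members `m (inl i)` lie in `V₁`,
in the maximal ideal of `V₂`, and are residually independent at `V₁`; the members `m (inr j)` lie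
in `V₂`, in the maximal ideal of `V₁`, and are residually independent at `V₂`. -/
structure GoodFamily (O : ValuationSubring K) (V₁ V₂ : ValuationSubring F)
    {ι₁ ι₂ : Type*} [Fintype ι₁] [Fintype ι₂] (m : ι₁ ⊕ ι₂ → F) : Prop where
  over₁ : Over O V₁
  over₂ : Over O V₂
  mem₁ : ∀ i, m (Sum.inl i) ∈ V₁
  small₂ : ∀ i, V₂.valuation (m (Sum.inl i)) < 1
  mem₂ : ∀ j, m (Sum.inr j) ∈ V₂
  small₁ : ∀ j, V₁.valuation (m (Sum.inr j)) < 1
  indep₁ : ∀ a : ι₁ → K, (∀ i, a i ∈ O) →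
    V₁.valuation (∑ i, algebraMap K F (a i) * m (Sum.inl i)) < 1 → ∀ i, O.valuation (a i) < 1
  indep₂ : ∀ a : ι₂ → K, (∀ j, a j ∈ O) →
    V₂.valuation (∑ j, algebraMap K F (a j) * m (Sum.inr j)) < 1 → ∀ j, O.valuation (a j) < 1

namespace GoodFamily

variable {O : ValuationSubring K} {V₁ V₂ : ValuationSubring F}
  {ι₁ ι₂ : Type*} [Fintype ι₁] [Fintype ι₂] {m : ι₁ ⊕ ι₂ → F}

theorem mem₁' (h : GoodFamily O V₁ V₂ m) (l : ι₁ ⊕ ι₂) : m l ∈ V₁ := by
  rcases l with i | j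
  · exact h.mem₁ i
  · exact (V₁.valuation_le_one_iff _).1 (h.small₁ j).le

theorem mem₂' (h : GoodFamily O V₁ V₂ m) (l : ι₁ ⊕ ι₂) : m l ∈ V₂ := by
  rcases l with i | j
  · exact (V₂.valuation_le_one_iff _).1 (h.small₂ i).le
  · exact h.mem₂ j

theorem sum_split (a : ι₁ ⊕ ι₂ → K) (m : ι₁ ⊕ ι₂ → F) :
    ∑ l, algebraMap K F (a l) * m l =
      (∑ i, algebraMap K F (a (Sum.inl i)) * m (Sum.inl i)) +
        ∑ j, algebraMap K F (a (Sum.inr j)) * m (Sum.inr j) := by
  rw [Fintype.sum_sum_type]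

/-- For integral coefficients: if the combination is small at `V₁`, the first block of
coefficients is small. -/
theorem small_inl (h : GoodFamily O V₁ V₂ m) (a : ι₁ ⊕ ι₂ → K) (ha : ∀ l, a l ∈ O)
    (hz : V₁.valuation (∑ l, algebraMap K F (a l) * m l) < 1) (i : ι₁) :
    O.valuation (a (Sum.inl i)) < 1 := by
  refine h.indep₁ (fun i => a (Sum.inl i)) (fun i => ha _) ?_ i
  have e : (∑ i, algebraMap K F (a (Sum.inl i)) * m (Sum.inl i)) =
      (∑ l, algebraMap K F (a l) * m l) -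
        ∑ j, algebraMap K F (a (Sum.inr j)) * m (Sum.inr j) := by
    rw [sum_split]; ring
  rw [e]
  refine Valuation.map_sub_lt _ hz (val_sum_lt_one _ _ _ fun j _ => ?_)
  exact val_mul_lt_one_right V₁ ((h.over₁.val_le_one_iff _).2
    ((O.valuation_le_one_iff _).2 (ha _))) (h.small₁ j)

/-- For integral coefficients: if the combination is small at `V₂`, the second block of
coefficients is small. -/
theorem small_inr (h : GoodFamily O V₁ V₂ m) (a : ι₁ ⊕ ι₂ → K) (ha : ∀ l, a l ∈ O)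
    (hz : V₂.valuation (∑ l, algebraMap K F (a l) * m l) < 1) (j : ι₂) :
    O.valuation (a (Sum.inr j)) < 1 := by
  refine h.indep₂ (fun j => a (Sum.inr j)) (fun j => ha _) ?_ j
  have e : (∑ j, algebraMap K F (a (Sum.inr j)) * m (Sum.inr j)) =
      (∑ l, algebraMap K F (a l) * m l) -
        ∑ i, algebraMap K F (a (Sum.inl i)) * m (Sum.inl i) := by
    rw [sum_split]; ring
  rw [e]
  refine Valuation.map_sub_lt _ hz (val_sum_lt_one _ _ _ fun i _ => ?_)
  exact val_mul_lt_one_right V₂ ((h.over₂.val_le_one_iff _).2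
    ((O.valuation_le_one_iff _).2 (ha _))) (h.small₂ i)

/-- **Lattice lemma.**  A combination of an adapted family lying in `V₁ ∩ V₂` has its
coefficients in `O`. -/
theorem coeff_mem (h : GoodFamily O V₁ V₂ m) (a : ι₁ ⊕ ι₂ → K)
    (hz₁ : (∑ l, algebraMap K F (a l) * m l) ∈ V₁)
    (hz₂ : (∑ l, algebraMap K F (a l) * m l) ∈ V₂) (l : ι₁ ⊕ ι₂) : a l ∈ O := by
  classical
  by_contra hl
  have : Nonempty (ι₁ ⊕ ι₂) := ⟨l⟩
  obtain ⟨l₀, hl₀⟩ := Finite.exists_max (fun l => O.valuation (a l))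
  have hbig : 1 < O.valuation (a l₀) := by
    have : ¬ O.valuation (a l) ≤ 1 := fun hh => hl ((O.valuation_le_one_iff _).1 hh)
    exact lt_of_lt_of_le (not_le.1 this) (hl₀ l)
  have h0 : a l₀ ≠ 0 := by
    intro h0; rw [h0, map_zero] at hbig; exact not_lt.2 zero_le_one hbig
  have hinv : O.valuation (a l₀)⁻¹ < 1 := by
    rw [map_inv₀]; exact inv_lt_one_of_one_lt₀ hbig
  set c : ι₁ ⊕ ι₂ → K := fun l => a l * (a l₀)⁻¹ with hc
  have hcO : ∀ l, c l ∈ O := fun l => by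
    rw [← O.valuation_le_one_iff, hc, map_mul, map_inv₀]
    have hpos : 0 < O.valuation (a l₀) := lt_trans zero_lt_one hbig
    calc O.valuation (a l) * (O.valuation (a l₀))⁻¹
        ≤ O.valuation (a l₀) * (O.valuation (a l₀))⁻¹ := by gcongr; exact hl₀ l
      _ = 1 := mul_inv_cancel₀ hpos.ne'
  have hsum : (∑ l, algebraMap K F (c l) * m l) =
      (∑ l, algebraMap K F (a l) * m l) * algebraMap K F (a l₀)⁻¹ := by
    rw [Finset.sum_mul]
    refine Finset.sum_congr rfl fun l _ => ?_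
    rw [hc, map_mul]; ring
  have hs₁ : V₁.valuation (∑ l, algebraMap K F (c l) * m l) < 1 := by
    rw [hsum]
    exact val_mul_lt_one_right V₁ ((V₁.valuation_le_one_iff _).2 hz₁)
      ((h.over₁.val_lt_one_iff _).2 hinv)
  have hs₂ : V₂.valuation (∑ l, algebraMap K F (c l) * m l) < 1 := by
    rw [hsum]
    exact val_mul_lt_one_right V₂ ((V₂.valuation_le_one_iff _).2 hz₂)
      ((h.over₂.val_lt_one_iff _).2 hinv)
  have hc₀ : c l₀ = 1 := by rw [hc]; exact mul_inv_cancel₀ h0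
  have hlt : O.valuation (c l₀) < 1 := by
    rcases l₀ with i | j
    · exact h.small_inl c hcO hs₁ i
    · exact h.small_inr c hcO hs₂ j
  rw [hc₀, map_one] at hlt
  exact lt_irrefl _ hlt

/-- A combination of an adapted family which is small at `V₁` and at `V₂` has small
coefficients. -/
theorem coeff_small (h : GoodFamily O V₁ V₂ m) (a : ι₁ ⊕ ι₂ → K)
    (hz₁ : V₁.valuation (∑ l, algebraMap K F (a l) * m l) < 1)
    (hz₂ : V₂.valuation (∑ l, algebraMap K F (a l) * m l) < 1) (l : ι₁ ⊕ ι₂) :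
    O.valuation (a l) < 1 := by
  have ha : ∀ l, a l ∈ O := h.coeff_mem a ((V₁.valuation_le_one_iff _).1 hz₁.le)
    ((V₂.valuation_le_one_iff _).1 hz₂.le)
  rcases l with i | j
  · exact h.small_inl a ha hz₁ i
  · exact h.small_inr a ha hz₂ j

/-- An adapted family is linearly independent. -/
theorem eq_zero_of_sum_eq_zero (h : GoodFamily O V₁ V₂ m) (a : ι₁ ⊕ ι₂ → K)
    (hz : (∑ l, algebraMap K F (a l) * m l) = 0) (l : ι₁ ⊕ ι₂) : a l = 0 := by
  classical
  by_contra hl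
  have : Nonempty (ι₁ ⊕ ι₂) := ⟨l⟩
  obtain ⟨l₀, hl₀⟩ := Finite.exists_max (fun l => O.valuation (a l))
  have hpos : 0 < O.valuation (a l₀) :=
    lt_of_lt_of_le (by rw [Valuation.pos_iff]; exact hl) (hl₀ l)
  have h0 : a l₀ ≠ 0 := by
    intro h0; rw [h0, map_zero] at hpos; exact lt_irrefl _ hpos
  set c : ι₁ ⊕ ι₂ → K := fun l => a l * (a l₀)⁻¹ with hc
  have hsum : (∑ l, algebraMap K F (c l) * m l) =
      (∑ l, algebraMap K F (a l) * m l) * algebraMap K F (a l₀)⁻¹ := by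
    rw [Finset.sum_mul]
    refine Finset.sum_congr rfl fun l _ => ?_
    rw [hc, map_mul]; ring
  rw [hz, zero_mul] at hsum
  have hlt : O.valuation (c l₀) < 1 :=
    h.coeff_small c (by rw [hsum, map_zero]; exact zero_lt_one)
      (by rw [hsum, map_zero]; exact zero_lt_one) l₀
  have hc₀ : c l₀ = 1 := by rw [hc]; exact mul_inv_cancel₀ h0
  rw [hc₀, map_one] at hlt
  exact lt_irrefl _ hlt

theorem linearIndependent (h : GoodFamily O V₁ V₂ m) : LinearIndependent K m := by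
  rw [Fintype.linearIndependent_iff]
  intro a ha l
  refine h.eq_zero_of_sum_eq_zero a ?_ l
  rw [← ha]
  exact Finset.sum_congr rfl fun l _ => (Algebra.smul_def _ _).symm

/-- Coordinates of elements of `V₁ ∩ V₂` in an adapted basis lie in `O`. -/
theorem repr_mem (h : GoodFamily O V₁ V₂ m) (b : Module.Basis (ι₁ ⊕ ι₂) K F) (hb : ⇑b = m)
    {z : F} (hz₁ : z ∈ V₁) (hz₂ : z ∈ V₂) (l : ι₁ ⊕ ι₂) : b.repr z l ∈ O := by
  have hz : (∑ l, algebraMap K F (b.repr z l) * m l) = z := by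
    conv_rhs => rw [← b.sum_repr z]
    refine Finset.sum_congr rfl fun l _ => ?_
    rw [Algebra.smul_def, hb]
  exact h.coeff_mem (fun l => b.repr z l) (by rw [hz]; exact hz₁) (by rw [hz]; exact hz₂) l

theorem sum_repr_eq (b : Module.Basis (ι₁ ⊕ ι₂) K F) (hb : ⇑b = m) (z : F) :
    (∑ l, algebraMap K F (b.repr z l) * m l) = z := by
  conv_rhs => rw [← b.sum_repr z]
  refine Finset.sum_congr rfl fun l _ => ?_
  rw [Algebra.smul_def, hb]

/-- The matrix, with entries in `O`, of multiplication by `y ∈ V₁ ∩ V₂` in an adapted basis. -/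
noncomputable def intMatrix (h : GoodFamily O V₁ V₂ m) (b : Module.Basis (ι₁ ⊕ ι₂) K F)
    (hb : ⇑b = m) {y : F} (hy₁ : y ∈ V₁) (hy₂ : y ∈ V₂) : Matrix (ι₁ ⊕ ι₂) (ι₁ ⊕ ι₂) O :=
  fun k l => ⟨b.repr (y * m l) k,
    h.repr_mem b hb (mul_mem hy₁ (h.mem₁' l)) (mul_mem hy₂ (h.mem₂' l)) k⟩

theorem intMatrix_apply (h : GoodFamily O V₁ V₂ m) (b : Module.Basis (ι₁ ⊕ ι₂) K F)
    (hb : ⇑b = m) {y : F} (hy₁ : y ∈ V₁) (hy₂ : y ∈ V₂) (k l : ι₁ ⊕ ι₂) :
    ((h.intMatrix b hb hy₁ hy₂ k l : O) : K) = b.repr (y * m l) k := rfl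

theorem intMatrix_map [DecidableEq ι₁] [DecidableEq ι₂] (h : GoodFamily O V₁ V₂ m)
    (b : Module.Basis (ι₁ ⊕ ι₂) K F) (hb : ⇑b = m) {y : F} (hy₁ : y ∈ V₁) (hy₂ : y ∈ V₂) :
    (h.intMatrix b hb hy₁ hy₂).map O.subtype = Algebra.leftMulMatrix b y := by
  ext k l
  rw [Matrix.map_apply, Algebra.leftMulMatrix_eq_repr_mul, hb]
  rfl

/-- The norm of `y ∈ V₁ ∩ V₂` is the determinant of the integral matrix. -/
theorem norm_eq_det_intMatrix [DecidableEq ι₁] [DecidableEq ι₂] (h : GoodFamily O V₁ V₂ m)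
    (b : Module.Basis (ι₁ ⊕ ι₂) K F) (hb : ⇑b = m) {y : F} (hy₁ : y ∈ V₁) (hy₂ : y ∈ V₂) :
    Algebra.norm K y = (((h.intMatrix b hb hy₁ hy₂).det : O) : K) := by
  rw [Algebra.norm_eq_matrix_det b, ← h.intMatrix_map b hb hy₁ hy₂]
  have := RingHom.map_det O.subtype (h.intMatrix b hb hy₁ hy₂)
  rw [RingHom.mapMatrix_apply] at this
  rw [← this]
  rfl

/-- In the expansion of `z = ∑ a_l m_l` (integral coefficients), the reduction at `V₁` only sees
the first block. -/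
theorem rho_sum₁ (h : GoodFamily O V₁ V₂ m) {k κ₁ : Type*} [Field k] [Field κ₁] [Algebra k κ₁]
    (π : O →+* k) (ρ₁ : V₁ →+* κ₁) (hρ₁ : ∀ z : V₁, V₁.valuation (z : F) < 1 → ρ₁ z = 0)
    (hc₁ : ∀ a : O, ρ₁ ⟨algebraMap K F a, (h.over₁ a).2 a.2⟩ = algebraMap k κ₁ (π a))
    (a : ι₁ ⊕ ι₂ → O) {z : F} (hz : z ∈ V₁)
    (hza : (∑ l, algebraMap K F (a l : K) * m l) = z) :
    ρ₁ ⟨z, hz⟩ = ∑ i, π (a (Sum.inl i)) • ρ₁ ⟨m (Sum.inl i), h.mem₁ i⟩ := by
  have e : (⟨z, hz⟩ : V₁) =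
      ∑ l, (⟨algebraMap K F (a l : K), (h.over₁ (a l : K)).2 (a l).2⟩ : V₁) *
        ⟨m l, h.mem₁' l⟩ := by
    apply Subtype.ext
    rw [AddSubmonoidClass.coe_finsetSum]
    simp only [MulMemClass.coe_mul]
    exact hza.symm
  rw [e, map_sum, Fintype.sum_sum_type]
  have h2 : (∑ j, ρ₁ ((⟨algebraMap K F (a (Sum.inr j) : K),
      (h.over₁ (a (Sum.inr j) : K)).2 (a _).2⟩ : V₁) *
      ⟨m (Sum.inr j), h.mem₁' (Sum.inr j)⟩)) = 0 := by
    refine Finset.sum_eq_zero fun j _ => ?_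
    rw [map_mul, hρ₁ ⟨m (Sum.inr j), h.mem₁' (Sum.inr j)⟩ (h.small₁ j), mul_zero]
  rw [h2, add_zero]
  refine Finset.sum_congr rfl fun i _ => ?_
  rw [map_mul, hc₁, Algebra.smul_def]

/-- In the expansion of `z = ∑ a_l m_l` (integral coefficients), the reduction at `V₂` only sees
the second block. -/
theorem rho_sum₂ (h : GoodFamily O V₁ V₂ m) {k κ₂ : Type*} [Field k] [Field κ₂] [Algebra k κ₂]
    (π : O →+* k) (ρ₂ : V₂ →+* κ₂) (hρ₂ : ∀ z : V₂, V₂.valuation (z : F) < 1 → ρ₂ z = 0)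
    (hc₂ : ∀ a : O, ρ₂ ⟨algebraMap K F a, (h.over₂ a).2 a.2⟩ = algebraMap k κ₂ (π a))
    (a : ι₁ ⊕ ι₂ → O) {z : F} (hz : z ∈ V₂)
    (hza : (∑ l, algebraMap K F (a l : K) * m l) = z) :
    ρ₂ ⟨z, hz⟩ = ∑ j, π (a (Sum.inr j)) • ρ₂ ⟨m (Sum.inr j), h.mem₂ j⟩ := by
  have e : (⟨z, hz⟩ : V₂) =
      ∑ l, (⟨algebraMap K F (a l : K), (h.over₂ (a l : K)).2 (a l).2⟩ : V₂) *
        ⟨m l, h.mem₂' l⟩ := by
    apply Subtype.ext
    rw [AddSubmonoidClass.coe_finsetSum]
    simp only [MulMemClass.coe_mul]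
    exact hza.symm
  rw [e, map_sum, Fintype.sum_sum_type]
  have h2 : (∑ i, ρ₂ ((⟨algebraMap K F (a (Sum.inl i) : K),
      (h.over₂ (a (Sum.inl i) : K)).2 (a _).2⟩ : V₂) *
      ⟨m (Sum.inl i), h.mem₂' (Sum.inl i)⟩)) = 0 := by
    refine Finset.sum_eq_zero fun i _ => ?_
    rw [map_mul, hρ₂ ⟨m (Sum.inl i), h.mem₂' (Sum.inl i)⟩ (h.small₂ i), mul_zero]
  rw [h2, zero_add]
  refine Finset.sum_congr rfl fun j _ => ?_
  rw [map_mul, hc₂, Algebra.smul_def]

/-- **Norms commute with reduction, two extensions** (adapted-family form). -/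
theorem norm_red (h : GoodFamily O V₁ V₂ m)
    (hcard : Fintype.card ι₁ + Fintype.card ι₂ = Module.finrank K F)
    {k κ₁ κ₂ : Type*} [Field k] [Field κ₁] [Field κ₂] [Algebra k κ₁] [Algebra k κ₂]
    (π : O →+* k) (ρ₁ : V₁ →+* κ₁) (ρ₂ : V₂ →+* κ₂)
    (hπ : ∀ a : O, O.valuation (a : K) < 1 → π a = 0)
    (hρ₁ : ∀ z : V₁, V₁.valuation (z : F) < 1 → ρ₁ z = 0)
    (hρ₂ : ∀ z : V₂, V₂.valuation (z : F) < 1 → ρ₂ z = 0)
    (hc₁ : ∀ a : O, ρ₁ ⟨algebraMap K F a, (h.over₁ a).2 a.2⟩ = algebraMap k κ₁ (π a))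
    (hc₂ : ∀ a : O, ρ₂ ⟨algebraMap K F a, (h.over₂ a).2 a.2⟩ = algebraMap k κ₂ (π a))
    (b₁ : Module.Basis ι₁ k κ₁) (hb₁ : ∀ i, ρ₁ ⟨m (Sum.inl i), h.mem₁ i⟩ = b₁ i)
    (b₂ : Module.Basis ι₂ k κ₂) (hb₂ : ∀ j, ρ₂ ⟨m (Sum.inr j), h.mem₂ j⟩ = b₂ j)
    {y : F} (hy₁ : y ∈ V₁) (hy₂ : y ∈ V₂) :
    ∃ hN : Algebra.norm K y ∈ O,
      π ⟨Algebra.norm K y, hN⟩ =
        Algebra.norm k (ρ₁ ⟨y, hy₁⟩) * Algebra.norm k (ρ₂ ⟨y, hy₂⟩) := by
  classical
  have hne : Nonempty (ι₁ ⊕ ι₂) := by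
    by_contra hemp
    rw [not_nonempty_iff] at hemp
    have : IsEmpty ι₁ := ⟨fun i => hemp.false (Sum.inl i)⟩
    have : Subsingleton κ₁ := by
      refine ⟨fun x y => b₁.ext_elem fun i => (IsEmpty.false i).elim⟩
    exact one_ne_zero (Subsingleton.elim (1 : κ₁) 0)
  have hcard' : Fintype.card (ι₁ ⊕ ι₂) = Module.finrank K F := by
    rw [Fintype.card_sum]; exact hcard
  set b : Module.Basis (ι₁ ⊕ ι₂) K F :=
    basisOfLinearIndependentOfCardEqFinrank h.linearIndependent hcard' with hbdef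
  have hb : ⇑b = m := coe_basisOfLinearIndependentOfCardEqFinrank _ _
  set A := h.intMatrix b hb hy₁ hy₂ with hA
  have hnorm := h.norm_eq_det_intMatrix b hb hy₁ hy₂
  have hcol : ∀ l, (∑ k, algebraMap K F ((A k l : O) : K) * m k) = y * m l := fun l =>
    sum_repr_eq b hb (y * m l)
  -- the reduced matrix is block diagonal
  have hred : π.mapMatrix A =
      Matrix.fromBlocks (Algebra.leftMulMatrix b₁ (ρ₁ ⟨y, hy₁⟩)) 0 0
        (Algebra.leftMulMatrix b₂ (ρ₂ ⟨y, hy₂⟩)) := by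
    ext k l
    rw [RingHom.mapMatrix_apply, Matrix.map_apply]
    rcases l with i | j
    · -- column `inl i`
      have hz₁ : y * m (Sum.inl i) ∈ V₁ := mul_mem hy₁ (h.mem₁ i)
      have hsmall : V₂.valuation (y * m (Sum.inl i)) < 1 :=
        val_mul_lt_one_right V₂ ((V₂.valuation_le_one_iff _).2 hy₂) (h.small₂ i)
      rcases k with i' | j'
      · rw [Matrix.fromBlocks_apply₁₁, Algebra.leftMulMatrix_eq_repr_mul]
        have e1 := h.rho_sum₁ π ρ₁ hρ₁ hc₁ (fun k => A k (Sum.inl i)) hz₁ (hcol (Sum.inl i))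
        have e2 : ρ₁ ⟨y * m (Sum.inl i), hz₁⟩ = ρ₁ ⟨y, hy₁⟩ * b₁ i := by
          rw [← hb₁ i, ← map_mul]; rfl
        rw [← e2, e1]
        simp only [hb₁]
        rw [b₁.repr_sum_self]
      · rw [Matrix.fromBlocks_apply₂₁, Matrix.zero_apply]
        refine hπ _ ?_
        refine h.small_inr (fun k => ((A k (Sum.inl i) : O) : K)) (fun k => (A k _).2) ?_ j'
        rw [hcol]; exact hsmall
    · -- column `inr j`
      have hz₂ : y * m (Sum.inr j) ∈ V₂ := mul_mem hy₂ (h.mem₂ j)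
      have hsmall : V₁.valuation (y * m (Sum.inr j)) < 1 :=
        val_mul_lt_one_right V₁ ((V₁.valuation_le_one_iff _).2 hy₁) (h.small₁ j)
      rcases k with i' | j'
      · rw [Matrix.fromBlocks_apply₁₂, Matrix.zero_apply]
        refine hπ _ ?_
        refine h.small_inl (fun k => ((A k (Sum.inr j) : O) : K)) (fun k => (A k _).2) ?_ i'
        rw [hcol]; exact hsmall
      · rw [Matrix.fromBlocks_apply₂₂, Algebra.leftMulMatrix_eq_repr_mul]
        have e1 := h.rho_sum₂ π ρ₂ hρ₂ hc₂ (fun k => A k (Sum.inr j)) hz₂ (hcol (Sum.inr j))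
        have e2 : ρ₂ ⟨y * m (Sum.inr j), hz₂⟩ = ρ₂ ⟨y, hy₂⟩ * b₂ j := by
          rw [← hb₂ j, ← map_mul]; rfl
        rw [← e2, e1]
        simp only [hb₂]
        rw [b₂.repr_sum_self]
  have hN : Algebra.norm K y ∈ O := by rw [hnorm]; exact (A.det).2
  refine ⟨hN, ?_⟩
  have e : (⟨Algebra.norm K y, hN⟩ : O) = A.det := Subtype.ext hnorm
  rw [e, RingHom.map_det, hred, Matrix.det_fromBlocks_zero₂₁,
    Algebra.norm_eq_matrix_det b₁, Algebra.norm_eq_matrix_det b₂]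

end GoodFamily

end Family

section Approx

variable {F : Type*} [Field F]

/-- Two incomparable valuation rings: there is `t` in the maximal ideal of `V₁` whose inverse
lies in the maximal ideal of `V₂`. -/
theorem exists_separating {V₁ V₂ : ValuationSubring F} (hne₁ : ¬ V₁ ≤ V₂) (hne₂ : ¬ V₂ ≤ V₁) :
    ∃ t : F, t ≠ 0 ∧ V₁.valuation t < 1 ∧ V₂.valuation t⁻¹ < 1 := by
  obtain ⟨a, ha1, ha2⟩ := SetLike.not_le_iff_exists.1 hne₁
  obtain ⟨b, hb2, hb1⟩ := SetLike.not_le_iff_exists.1 hne₂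
  have ha0 : a ≠ 0 := by rintro rfl; exact ha2 (zero_mem _)
  have hb0 : b ≠ 0 := by rintro rfl; exact hb1 (zero_mem _)
  have hv1a : V₁.valuation a ≤ 1 := (V₁.valuation_le_one_iff a).2 ha1
  have hv2b : V₂.valuation b ≤ 1 := (V₂.valuation_le_one_iff b).2 hb2
  have hv1b : 1 < V₁.valuation b := by
    rw [← not_le, V₁.valuation_le_one_iff]; exact hb1
  have hv2a : 1 < V₂.valuation a := by
    rw [← not_le, V₂.valuation_le_one_iff]; exact ha2
  refine ⟨a * b⁻¹, mul_ne_zero ha0 (inv_ne_zero hb0), ?_, ?_⟩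
  · refine val_mul_lt_one_right V₁ hv1a ?_
    rw [map_inv₀]; exact inv_lt_one_of_one_lt₀ hv1b
  · rw [mul_inv, inv_inv]
    refine val_mul_lt_one_left V₂ ?_ hv2b
    rw [map_inv₀]; exact inv_lt_one_of_one_lt₀ hv2a

/-- Two incomparable valuation rings: there is `e` with `e ≡ 0` at `V₁` and `e ≡ 1` at `V₂`. -/
theorem exists_idem {V₁ V₂ : ValuationSubring F} (hne₁ : ¬ V₁ ≤ V₂) (hne₂ : ¬ V₂ ≤ V₁) :
    ∃ e : F, V₁.valuation e < 1 ∧ V₂.valuation (1 - e) < 1 := by
  obtain ⟨t, ht0, ht1, ht2⟩ := exists_separating hne₁ hne₂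
  have hu1 : V₁.valuation (1 + t) = 1 := Valuation.map_one_add_of_lt _ ht1
  have hne : 1 + t ≠ 0 := by
    intro h; rw [h, map_zero] at hu1; exact zero_ne_one hu1
  have hpos : 0 < V₂.valuation t := by rw [Valuation.pos_iff]; exact ht0
  have ht2' : 1 < V₂.valuation t := by
    rw [map_inv₀] at ht2
    exact (inv_lt_one₀ hpos).1 ht2
  have hu2 : V₂.valuation (1 + t) = V₂.valuation t := by
    rw [add_comm]
    exact Valuation.map_add_eq_of_lt_left _ (by rw [map_one]; exact ht2')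
  refine ⟨t * (1 + t)⁻¹, ?_, ?_⟩
  · rw [map_mul, map_inv₀, hu1, inv_one, mul_one]; exact ht1
  · have e : 1 - t * (1 + t)⁻¹ = (1 + t)⁻¹ := by field_simp; ring
    rw [e, map_inv₀, hu2, ← map_inv₀]; exact ht2

/-- **Weak approximation** for two incomparable valuation rings (any rank): every `b ∈ V₁` is
congruent modulo the maximal ideal of `V₁` to an element of the maximal ideal of `V₂`. -/
theorem exists_approx {V₁ V₂ : ValuationSubring F} (hne₁ : ¬ V₁ ≤ V₂) (hne₂ : ¬ V₂ ≤ V₁)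
    {b : F} (hb : b ∈ V₁) :
    ∃ g : F, g ∈ V₁ ∧ V₁.valuation (g - b) < 1 ∧ V₂.valuation g < 1 := by
  obtain ⟨e, he1, he2⟩ := exists_idem hne₁ hne₂
  have hb1 : V₁.valuation b ≤ 1 := (V₁.valuation_le_one_iff b).2 hb
  have he2' : V₂.valuation e = 1 := by
    have : e = 1 - (1 - e) := by ring
    rw [this]
    exact Valuation.map_one_sub_of_lt _ he2
  -- step 1: an element `b'` of `V₁ ∩ V₂` congruent to `b` at `V₁`
  obtain ⟨b', hb'1, hb'd, hb'2⟩ : ∃ b' : F, V₁.valuation b' ≤ 1 ∧ V₁.valuation (b' - b) < 1 ∧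
      V₂.valuation b' ≤ 1 := by
    by_cases hb2 : V₂.valuation b ≤ 1
    · exact ⟨b, hb1, by rw [sub_self, map_zero]; exact zero_lt_one, hb2⟩
    · rw [not_le] at hb2
      have hbe1 : V₁.valuation (b * e) < 1 := val_mul_lt_one_right V₁ hb1 he1
      have hu1 : V₁.valuation (1 + b * e) = 1 := Valuation.map_one_add_of_lt _ hbe1
      have hne : 1 + b * e ≠ 0 := by
        intro h; rw [h, map_zero] at hu1; exact zero_ne_one hu1
      have hbe2 : V₂.valuation (b * e) = V₂.valuation b := by rw [map_mul, he2', mul_one]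
      have hu2 : V₂.valuation (1 + b * e) = V₂.valuation b := by
        rw [add_comm, ← hbe2]
        exact Valuation.map_add_eq_of_lt_left _ (by rw [map_one, hbe2]; exact hb2)
      have hb0 : V₂.valuation b ≠ 0 := (lt_trans zero_lt_one hb2).ne'
      refine ⟨b * (1 + b * e)⁻¹, ?_, ?_, ?_⟩
      · rw [map_mul, map_inv₀, hu1, inv_one, mul_one]; exact hb1
      · have e' : b * (1 + b * e)⁻¹ - b = -(b * (b * e)) * (1 + b * e)⁻¹ := by
          field_simp; ring
        rw [e', map_mul, map_inv₀, hu1, inv_one, mul_one, Valuation.map_neg]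
        exact val_mul_lt_one_right V₁ hb1 hbe1
      · rw [map_mul, map_inv₀, hu2, mul_inv_cancel₀ hb0]
  -- step 2: multiply by `1 - e`
  refine ⟨b' * (1 - e), ?_, ?_, ?_⟩
  · rw [← V₁.valuation_le_one_iff, map_mul]
    have : V₁.valuation (1 - e) = 1 := Valuation.map_one_sub_of_lt _ he1
    rw [this, mul_one]; exact hb'1
  · have e' : b' * (1 - e) - b = (b' - b) - b' * e := by ring
    rw [e']
    exact Valuation.map_sub_lt _ hb'd (val_mul_lt_one_right V₁ hb'1 he1)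
  · exact val_mul_lt_one_right V₂ hb'2 he2

end Approx

section Main

variable {K F : Type*} [Field K] [Field F] [Algebra K F]

/-- The kernel of a surjective ring homomorphism from a valuation ring onto a field is the
maximal ideal. -/
theorem map_eq_zero_iff_val_lt_one {k : Type*} [Field k] {V : ValuationSubring F}
    (ρ : V →+* k) (hρ : Function.Surjective ρ) (z : V) :
    ρ z = 0 ↔ V.valuation (z : F) < 1 := by
  have h := IsLocalRing.eq_maximalIdeal (RingHom.ker_isMaximal_of_surjective ρ hρ)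
  rw [← ValuationSubring.valuation_lt_one_iff, ← h, RingHom.mem_ker]

/-- **Norms commute with reduction, two extensions.**  `V₁`, `V₂` incomparable valuation rings of
`F` over `O ⊆ K`, with surjective reductions onto fields `κ₁`, `κ₂` finite over the residue field
`k` of `O`, and `[κ₁ : k] + [κ₂ : k] = [F : K]`.  Then for `y ∈ V₁ ∩ V₂` the norm `N_{F/K} y` lies
in `O` and reduces to `N_{κ₁/k} (ρ₁ y) * N_{κ₂/k} (ρ₂ y)`. -/
theorem norm_red_two {O : ValuationSubring K} {V₁ V₂ : ValuationSubring F}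
    (h₁ : Over O V₁) (h₂ : Over O V₂) (hne₁ : ¬ V₁ ≤ V₂) (hne₂ : ¬ V₂ ≤ V₁)
    {k κ₁ κ₂ : Type*} [Field k] [Field κ₁] [Field κ₂] [Algebra k κ₁] [Algebra k κ₂]
    [Module.Finite k κ₁] [Module.Finite k κ₂]
    (π : O →+* k) (ρ₁ : V₁ →+* κ₁) (ρ₂ : V₂ →+* κ₂)
    (hπ : Function.Surjective π) (hρ₁ : Function.Surjective ρ₁) (hρ₂ : Function.Surjective ρ₂)
    (hc₁ : ∀ a : O, ρ₁ ⟨algebraMap K F a, (h₁ a).2 a.2⟩ = algebraMap k κ₁ (π a))
    (hc₂ : ∀ a : O, ρ₂ ⟨algebraMap K F a, (h₂ a).2 a.2⟩ = algebraMap k κ₂ (π a))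
    (hdeg : Module.finrank k κ₁ + Module.finrank k κ₂ = Module.finrank K F)
    {y : F} (hy₁ : y ∈ V₁) (hy₂ : y ∈ V₂) :
    ∃ hN : Algebra.norm K y ∈ O,
      π ⟨Algebra.norm K y, hN⟩ =
        Algebra.norm k (ρ₁ ⟨y, hy₁⟩) * Algebra.norm k (ρ₂ ⟨y, hy₂⟩) := by
  classical
  set b₁ := Module.finBasis k κ₁ with hb₁def
  set b₂ := Module.finBasis k κ₂ with hb₂def
  choose e₁ he₁ using fun i => hρ₁ (b₁ i)
  choose e₂ he₂ using fun j => hρ₂ (b₂ j)
  choose g₁ hg₁m hg₁d hg₁s using fun i => exists_approx hne₁ hne₂ (e₁ i).2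
  choose g₂ hg₂m hg₂d hg₂s using fun j => exists_approx hne₂ hne₁ (e₂ j).2
  have hρg₁ : ∀ i, ρ₁ ⟨g₁ i, hg₁m i⟩ = b₁ i := fun i => by
    rw [← he₁ i, ← sub_eq_zero, ← map_sub, map_eq_zero_iff_val_lt_one ρ₁ hρ₁]
    exact hg₁d i
  have hρg₂ : ∀ j, ρ₂ ⟨g₂ j, hg₂m j⟩ = b₂ j := fun j => by
    rw [← he₂ j, ← sub_eq_zero, ← map_sub, map_eq_zero_iff_val_lt_one ρ₂ hρ₂]
    exact hg₂d j
  have hπ0 : ∀ a : O, π a = 0 ↔ O.valuation (a : K) < 1 :=
    fun a => map_eq_zero_iff_val_lt_one π hπ a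
  have hgood : GoodFamily O V₁ V₂ (Sum.elim g₁ g₂) :=
    { over₁ := h₁
      over₂ := h₂
      mem₁ := fun i => hg₁m i
      small₂ := fun i => hg₁s i
      mem₂ := fun j => hg₂m j
      small₁ := fun j => hg₂s j
      indep₁ := by
        intro a ha hsmall i
        simp only [Sum.elim_inl] at hsmall
        have hmem : (∑ i, algebraMap K F (a i) * g₁ i) ∈ V₁ :=
          (V₁.valuation_le_one_iff _).1 hsmall.le
        have h0 : ρ₁ ⟨_, hmem⟩ = 0 := (map_eq_zero_iff_val_lt_one ρ₁ hρ₁ ⟨_, hmem⟩).2 hsmall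
        have e : (⟨_, hmem⟩ : V₁) =
            ∑ i, (⟨algebraMap K F (a i), (h₁ (a i)).2 (ha i)⟩ : V₁) * ⟨g₁ i, hg₁m i⟩ := by
          apply Subtype.ext
          rw [AddSubmonoidClass.coe_finsetSum]
          simp only [MulMemClass.coe_mul]
        rw [e, map_sum] at h0
        have h0' : ∑ i, π ⟨a i, ha i⟩ • b₁ i = 0 := by
          rw [← h0]
          refine Finset.sum_congr rfl fun i _ => ?_
          rw [map_mul, hρg₁, Algebra.smul_def, ← hc₁]
        have := Fintype.linearIndependent_iff.1 b₁.linearIndependent _ h0' i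
        exact (hπ0 ⟨a i, ha i⟩).1 this
      indep₂ := by
        intro a ha hsmall j
        simp only [Sum.elim_inr] at hsmall
        have hmem : (∑ j, algebraMap K F (a j) * g₂ j) ∈ V₂ :=
          (V₂.valuation_le_one_iff _).1 hsmall.le
        have h0 : ρ₂ ⟨_, hmem⟩ = 0 := (map_eq_zero_iff_val_lt_one ρ₂ hρ₂ ⟨_, hmem⟩).2 hsmall
        have e : (⟨_, hmem⟩ : V₂) =
            ∑ j, (⟨algebraMap K F (a j), (h₂ (a j)).2 (ha j)⟩ : V₂) * ⟨g₂ j, hg₂m j⟩ := by
          apply Subtype.ext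
          rw [AddSubmonoidClass.coe_finsetSum]
          simp only [MulMemClass.coe_mul]
        rw [e, map_sum] at h0
        have h0' : ∑ j, π ⟨a j, ha j⟩ • b₂ j = 0 := by
          rw [← h0]
          refine Finset.sum_congr rfl fun j _ => ?_
          rw [map_mul, hρg₂, Algebra.smul_def, ← hc₂]
        have := Fintype.linearIndependent_iff.1 b₂.linearIndependent _ h0' j
        exact (hπ0 ⟨a j, ha j⟩).1 this }
  refine hgood.norm_red (by simpa using hdeg) π ρ₁ ρ₂ (fun a ha => (hπ0 a).2 ha)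
    (fun z hz => (map_eq_zero_iff_val_lt_one ρ₁ hρ₁ z).2 hz)
    (fun z hz => (map_eq_zero_iff_val_lt_one ρ₂ hρ₂ z).2 hz) hc₁ hc₂ b₁ hρg₁ b₂ hρg₂ hy₁ hy₂

end Main

section Insep

variable {k κ : Type*} [Field k] [Field κ] [Algebra k κ]

/-- Norm in a residue extension of degree one. -/
theorem algebraMap_norm_of_finrank_eq_one (hdeg : Module.finrank k κ = 1) (z : κ) :
    algebraMap k κ (Algebra.norm k z) = z := by
  have hfin : FiniteDimensional k κ := Module.finite_of_finrank_pos (by rw [hdeg]; exact one_pos)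
  have htop : (⊥ : Subalgebra k κ) = ⊤ := Subalgebra.bot_eq_top_of_finrank_eq_one hdeg
  have hz : z ∈ (⊥ : Subalgebra k κ) := by rw [htop]; exact Algebra.mem_top
  obtain ⟨a, rfl⟩ := Algebra.mem_bot.1 hz
  rw [Algebra.norm_algebraMap, hdeg, pow_one]

/-- Norm in a purely inseparable residue extension of degree `q = char`: if `z ^ q` comes from
`a ∈ k`, then `N z = a`. -/
theorem norm_eq_of_pow_eq (q : ℕ) [Fact q.Prime] [CharP k q] (hdeg : Module.finrank k κ = q)
    {z : κ} {a : k} (ha : algebraMap k κ a = z ^ q) : Algebra.norm k z = a := by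
  have h1 : (Algebra.norm k z) ^ q = a ^ q := by
    rw [← map_pow, ← ha, Algebra.norm_algebraMap, hdeg]
  exact frobenius_inj k q h1

theorem algebraMap_norm_eq_pow (q : ℕ) [Fact q.Prime] [CharP k q]
    (hdeg : Module.finrank k κ = q) (hpow : ∀ z : κ, z ^ q ∈ (algebraMap k κ).range) (z : κ) :
    algebraMap k κ (Algebra.norm k z) = z ^ q := by
  obtain ⟨a, ha⟩ := hpow z
  rw [norm_eq_of_pow_eq q hdeg ha, ha]

end Insep

section Hecke

variable {K F : Type*} [Field K] [Field F] [Algebra K F]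

/-- **Norm reduction for a degeneracy map at a prime of bad reduction.**
`[F : K] = q + 1`, two extensions `V₁` (residue degree `1`) and `V₂` (residue degree `q`, with
`κ₂ ^ q ⊆ k`).  For `y ∈ V₁ ∩ V₂` the norm is integral and
`red (N y) = red₁ y * a`, where `a ∈ k` is the element with `a = (red₂ y) ^ q` in `κ₂`. -/
theorem norm_red_insep {O : ValuationSubring K} {V₁ V₂ : ValuationSubring F}
    (h₁ : Over O V₁) (h₂ : Over O V₂) (hne₁ : ¬ V₁ ≤ V₂) (hne₂ : ¬ V₂ ≤ V₁)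
    {k κ₁ κ₂ : Type*} [Field k] [Field κ₁] [Field κ₂] [Algebra k κ₁] [Algebra k κ₂]
    (q : ℕ) [Fact q.Prime] [CharP k q]
    (π : O →+* k) (ρ₁ : V₁ →+* κ₁) (ρ₂ : V₂ →+* κ₂)
    (hπ : Function.Surjective π) (hρ₁ : Function.Surjective ρ₁) (hρ₂ : Function.Surjective ρ₂)
    (hc₁ : ∀ a : O, ρ₁ ⟨algebraMap K F a, (h₁ a).2 a.2⟩ = algebraMap k κ₁ (π a))
    (hc₂ : ∀ a : O, ρ₂ ⟨algebraMap K F a, (h₂ a).2 a.2⟩ = algebraMap k κ₂ (π a))
    (hdeg₁ : Module.finrank k κ₁ = 1) (hdeg₂ : Module.finrank k κ₂ = q)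
    (hdeg : Module.finrank K F = q + 1)
    {y : F} (hy₁ : y ∈ V₁) (hy₂ : y ∈ V₂) {a : k}
    (ha : algebraMap k κ₂ a = ρ₂ ⟨y, hy₂⟩ ^ q) :
    ∃ hN : Algebra.norm K y ∈ O,
      algebraMap k κ₁ (π ⟨Algebra.norm K y, hN⟩) = ρ₁ ⟨y, hy₁⟩ * algebraMap k κ₁ a := by
  have hq : 0 < q := (Fact.out : q.Prime).pos
  have : Module.Finite k κ₁ := Module.finite_of_finrank_pos (by rw [hdeg₁]; exact one_pos)
  have : Module.Finite k κ₂ := Module.finite_of_finrank_pos (by rw [hdeg₂]; exact hq)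
  obtain ⟨hN, hred⟩ := norm_red_two h₁ h₂ hne₁ hne₂ π ρ₁ ρ₂ hπ hρ₁ hρ₂ hc₁ hc₂
    (by rw [hdeg₁, hdeg₂, hdeg, add_comm]) hy₁ hy₂
  refine ⟨hN, ?_⟩
  rw [hred, map_mul, algebraMap_norm_of_finrank_eq_one hdeg₁, norm_eq_of_pow_eq q hdeg₂ ha]

end Hecke

end Fermat.Agent.S35.H253
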